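import Mathlib
import Fermat.Agent.MW17.Greedy
import Fermat.Agent.S24.PlaceOrd

/-!
# S17 (heights), leaf "generic translate", part 2: the base-point-free pencil `|D₁ + R₀|`

On a Riemann–Roch package `R : V27RR K F g` all of whose places have degree one:
for `D₁ ≥ 0`, `deg D₁ = g`, `l(D₁) = 1`

* `mwgt_pencil_bpf` : outside a set of at most `g²` places `R₀`, `l(D₁ + R₀ - P) = 1` for EVERY
  place `P` (the pencil `|D₁ + R₀|` has no base point);
* `mwgt_finrank_add_single` : `l(D₁ + R₀) = 2`;
* `mwgt_pencil_fn` : a non-constant `f ∈ L(D₁ + R₀)` with polar divisor exactly `D₁ + R₀`;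
* `mwgt_fibre` : for `R'` off the support with `f(R') = c`, the divisor
  `D₂ = div(f - c) + D₁ + R₀ - R'` is effective, vanishes on `supp (D₁ + R₀)` and equals
  `ord (f - c) - [v = R']` elsewhere.
-/

set_option autoImplicit false
set_option linter.unusedSectionVars false
set_option linter.unusedVariables false
set_option linter.style.haveILetI false

noncomputable section

namespace Fermat.Agent.MW

open AlgebraicCurve Module Fermat.Agent.V.RR Fermat.Agent.V.Dual Fermat.Agent.MW17
  Fermat.Agent.S24

variable {K F : Type*} [Field K] [Field F] [Algebra K F] {g : ℕ}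

/-- constants lie in `L(A)` for `A ≥ 0`. -/
theorem mwgt_algebraMap_mem {A : Divisor K F} (hA : 0 ≤ A) (a : K) :
    algebraMap K F a ∈ riemannRochSpace A := by
  rw [mem_riemannRochSpace_iff]
  intro v
  right
  rw [PlaceOrd.ord_algebraMap]
  have : (0 : ℤ) ≤ A v := hA v
  omega

/-- if `l(A) = 1` and `A ≥ 0`, every element of `L(A)` is a constant. -/
theorem mwgt_eq_algebraMap_of_finrank_eq_one (R : V27RR K F g) {A : Divisor K F} (hA : 0 ≤ A)
    (hl : finrank K (riemannRochSpace A) = 1) {s : F} (hs : s ∈ riemannRochSpace A) :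
    ∃ c : K, s = algebraMap K F c := by
  haveI := R.finL A
  have h1 : (⟨1, by simpa using mwgt_algebraMap_mem hA 1⟩ : riemannRochSpace A) ≠ 0 := by
    intro h
    exact one_ne_zero (congrArg Subtype.val h)
  obtain ⟨c, hc⟩ := (finrank_eq_one_iff_of_nonzero' _ h1).1 hl ⟨s, hs⟩
  refine ⟨c, ?_⟩
  have := congrArg Subtype.val hc
  simp only [SetLike.val_smul] at this
  rw [← this, Algebra.smul_def, mul_one]

/-- `L(D - P) = 0` if `l(D) = 1`, `D ≥ 0` and `P ∉ supp D`. -/
theorem mwgt_rrSpace_sub_single_eq_bot (R : V27RR K F g) {D : Divisor K F} (hD : 0 ≤ D)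
    (hl : finrank K (riemannRochSpace D) = 1) {P : Place K F} (hP : D P = 0) :
    riemannRochSpace (D - Finsupp.single P 1) = ⊥ := by
  rw [eq_bot_iff]
  intro s hs
  have hsD : s ∈ riemannRochSpace D :=
    v27rr_rrSpace_mono (sub_le_self _ (Finsupp.single_nonneg.mpr zero_le_one)) hs
  obtain ⟨c, rfl⟩ := mwgt_eq_algebraMap_of_finrank_eq_one R hD hl hsD
  rw [Submodule.mem_bot]
  by_contra h0
  rw [mem_riemannRochSpace_iff] at hs
  have := (hs P).resolve_left h0
  rw [PlaceOrd.ord_algebraMap, Finsupp.sub_apply, hP, Finsupp.single_eq_same] at this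
  omega

/-- `l(D₁ + R₀) = 2` for `D₁` non-special of degree `g`. -/
theorem mwgt_finrank_add_single (R : V27RR K F g) {D1 : Divisor K F}
    (hdeg : Divisor.degree D1 = g) (hl : finrank K (riemannRochSpace D1) = 1)
    {R0 : Place K F} (hR0 : R0.deg = 1) :
    finrank K (riemannRochSpace (D1 + Finsupp.single R0 1)) = 2 := by
  obtain ⟨W, hW, -, -, hRR⟩ := R.can
  have hns := mw17_nonspecial R hRR hl hdeg
  have hz : riemannRochSpace (W - (D1 + Finsupp.single R0 1)) = ⊥ := by
    rw [eq_bot_iff, ← hns]
    refine v27rr_rrSpace_mono ?_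
    rw [← sub_sub]
    exact sub_le_self _ (Finsupp.single_nonneg.mpr zero_le_one)
  have h := hRR (D1 + Finsupp.single R0 1)
  rw [hz, finrank_bot, map_add, hdeg, Divisor.degree_single, hR0] at h
  push_cast at h
  have : (finrank K (riemannRochSpace (D1 + Finsupp.single R0 1)) : ℤ) = 2 := by linarith
  exact_mod_cast this

/-- case `P ∉ supp D₁`, `P ≠ R₀` of base-point-freeness: no condition on `R₀`. -/
theorem mwgt_finrank_sub_of_not_mem (R : V27RR K F g) (hdeg1 : ∀ v : Place K F, v.deg = 1)
    {D1 : Divisor K F} (h0 : 0 ≤ D1) (hdeg : Divisor.degree D1 = g)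
    (hl : finrank K (riemannRochSpace D1) = 1) (R0 : Place K F) {P : Place K F}
    (hP : D1 P = 0) :
    finrank K (riemannRochSpace (D1 + Finsupp.single R0 1 - Finsupp.single P 1)) = 1 := by
  obtain ⟨W, hW, -, -, hRR⟩ := R.can
  -- `l(W - (D₁ - P)) = l(D₁ - P) = 0`
  have hb := mwgt_rrSpace_sub_single_eq_bot R h0 hl hP
  have h1 := hRR (D1 - Finsupp.single P 1)
  rw [hb, finrank_bot, map_sub, hdeg, Divisor.degree_single, hdeg1 P] at h1
  push_cast at h1
  have h2 : finrank K (riemannRochSpace (W - (D1 - Finsupp.single P 1))) = 0 := by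
    have : (finrank K (riemannRochSpace (W - (D1 - Finsupp.single P 1))) : ℤ) = 0 := by linarith
    exact_mod_cast this
  haveI := R.finL (W - (D1 - Finsupp.single P 1))
  have h3 : riemannRochSpace (W - (D1 - Finsupp.single P 1)) = ⊥ := Submodule.finrank_eq_zero.1 h2
  have hz : riemannRochSpace (W - (D1 + Finsupp.single R0 1 - Finsupp.single P 1)) = ⊥ := by
    rw [eq_bot_iff, ← h3]
    refine v27rr_rrSpace_mono ?_
    have : W - (D1 + Finsupp.single R0 1 - Finsupp.single P 1) =
        W - (D1 - Finsupp.single P 1) - Finsupp.single R0 1 := by abel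
    rw [this]
    exact sub_le_self _ (Finsupp.single_nonneg.mpr zero_le_one)
  have h := hRR (D1 + Finsupp.single R0 1 - Finsupp.single P 1)
  rw [hz, finrank_bot, map_sub, map_add, hdeg, Divisor.degree_single, Divisor.degree_single,
    hdeg1 P, hdeg1 R0] at h
  push_cast at h
  have : (finrank K (riemannRochSpace (D1 + Finsupp.single R0 1 - Finsupp.single P 1)) : ℤ)
      = 1 := by linarith
  exact_mod_cast this

/-- **base-point-freeness of `|D₁ + R₀|`** outside at most `g²` places `R₀`. -/
theorem mwgt_pencil_bpf (R : V27RR K F g) (hdeg1 : ∀ v : Place K F, v.deg = 1)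
    {D1 : Divisor K F} (h0 : 0 ≤ D1) (hdeg : Divisor.degree D1 = g)
    (hl : finrank K (riemannRochSpace D1) = 1) :
    ∃ S : Finset (Place K F), S.card ≤ g * g ∧ (∀ v, D1 v ≠ 0 → v ∈ S) ∧
      ∀ R0 : Place K F, R0 ∉ S → ∀ P : Place K F,
        finrank K (riemannRochSpace (D1 + Finsupp.single R0 1 - Finsupp.single P 1)) = 1 := by
  classical
  have hpos : ∀ v : Place K F, 0 < v.deg := fun v => by rw [hdeg1 v]; exact one_pos
  -- the exceptional sets of the greedy step for `D₁ - P`, `P ∈ supp D₁`
  have hstep : ∀ P : Place K F, P ∈ D1.support → ∃ S : Finset (Place K F),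
      (S.card : ℤ) ≤ (g : ℤ) - 1 ∧ ∀ R0 : Place K F, R0 ∉ S →
        finrank K (riemannRochSpace (D1 - Finsupp.single P 1 + Finsupp.single R0 1)) = 1 := by
    intro P hP
    have hP1 : 1 ≤ D1 P := by
      have h1 : (0 : ℤ) ≤ D1 P := h0 P
      have h2 : D1 P ≠ 0 := Finsupp.mem_support_iff.1 hP
      omega
    have hle : Finsupp.single P (1 : ℤ) ≤ D1 := by
      rw [Finsupp.le_def]
      intro v
      rw [Finsupp.single_apply]
      split_ifs with hv
      · subst hv; exact hP1
      · exact h0 v
    have hA0 : 0 ≤ D1 - Finsupp.single P 1 := sub_nonneg.2 hle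
    have hAl := mw17_finrank_eq_one_of_le R hA0
      (sub_le_self _ (Finsupp.single_nonneg.mpr zero_le_one)) hl
    have hAdeg : Divisor.degree (D1 - Finsupp.single P 1) = (g : ℤ) - 1 := by
      rw [map_sub, hdeg, Divisor.degree_single, hdeg1 P]; simp
    obtain ⟨S, hS, hstep⟩ := mw17_step R hAl (by rw [hAdeg]; omega)
    refine ⟨S, by rw [hAdeg] at hS; linarith, fun R0 hR0 => hstep R0 (hdeg1 R0) hR0⟩
  choose! T hTcard hT using hstep
  refine ⟨D1.support ∪ D1.support.biUnion T, ?_, ?_, ?_⟩
  · -- cardinality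
    have hsupp : (D1.support.card : ℤ) ≤ g := by
      have := mw17_card_support_le hpos h0
      rwa [hdeg] at this
    have hsupp' : D1.support.card ≤ g := by exact_mod_cast hsupp
    have hbi : (D1.support.biUnion T).card ≤ D1.support.card * (g - 1) := by
      refine (Finset.card_biUnion_le).trans ?_
      rw [← smul_eq_mul, ← Finset.sum_const]
      refine Finset.sum_le_sum fun P hP => ?_
      have := hTcard P hP
      omega
    calc (D1.support ∪ D1.support.biUnion T).card
        ≤ D1.support.card + (D1.support.biUnion T).card := Finset.card_union_le _ _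
      _ ≤ g + g * (g - 1) := by
          refine add_le_add hsupp' (hbi.trans ?_)
          exact Nat.mul_le_mul_right _ hsupp'
      _ ≤ g * g := by
          rcases Nat.eq_zero_or_pos g with rfl | hg
          · simp
          · obtain ⟨k, rfl⟩ : ∃ k, g = k + 1 := ⟨g - 1, by omega⟩
            simp only [Nat.add_sub_cancel]
            ring_nf
            omega
  · intro v hv
    exact Finset.mem_union_left _ (Finsupp.mem_support_iff.2 hv)
  · intro R0 hR0 P
    rw [Finset.mem_union, not_or] at hR0
    by_cases hPR : P = R0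
    · subst hPR
      rwa [add_sub_cancel_right]
    by_cases hP : D1 P = 0
    · exact mwgt_finrank_sub_of_not_mem R hdeg1 h0 hdeg hl R0 hP
    · have hPs : P ∈ D1.support := Finsupp.mem_support_iff.2 hP
      have hR0T : R0 ∉ T P := fun h => hR0.2 (Finset.mem_biUnion.2 ⟨P, hPs, h⟩)
      have := hT P hPs R0 hR0T
      have he : D1 + Finsupp.single R0 1 - Finsupp.single P 1 =
          D1 - Finsupp.single P 1 + Finsupp.single R0 1 := by abel
      rwa [he]

/-- **the pencil function**: a non-constant `f ∈ L(D₁ + R₀)` whose polar divisor is exactly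
`D₁ + R₀`. -/
theorem mwgt_pencil_fn (R : V27RR K F g) [IsAlgClosed K] {D1 : Divisor K F} (h0 : 0 ≤ D1)
    (hdeg : Divisor.degree D1 = g) (hl : finrank K (riemannRochSpace D1) = 1)
    {R0 : Place K F} (hR0 : R0.deg = 1)
    (hbpf : ∀ P : Place K F,
      finrank K (riemannRochSpace (D1 + Finsupp.single R0 1 - Finsupp.single P 1)) = 1) :
    ∃ f : F, f ∈ riemannRochSpace (D1 + Finsupp.single R0 1) ∧ Transcendental K f ∧
      ∀ P : Place K F, (D1 + Finsupp.single R0 1 : Divisor K F) P ≠ 0 →
        P.ord f = -(D1 + Finsupp.single R0 1 : Divisor K F) P := by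
  classical
  set A1 : Divisor K F := D1 + Finsupp.single R0 1 with hA1
  have hA10 : 0 ≤ A1 := add_nonneg h0 (Finsupp.single_nonneg.mpr zero_le_one)
  have h2 : finrank K (riemannRochSpace A1) = 2 := mwgt_finrank_add_single R hdeg hl hR0
  haveI := R.finL A1
  -- a non-constant element
  obtain ⟨f, hf, hfc⟩ : ∃ f : F, f ∈ riemannRochSpace A1 ∧ ∀ c : K, f ≠ algebraMap K F c := by
    by_contra hcon
    push Not at hcon
    have hle : riemannRochSpace A1 ≤ Submodule.span K {(1 : F)} := by
      intro s hs
      obtain ⟨c, hc⟩ := hcon s hs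
      rw [Submodule.mem_span_singleton]
      exact ⟨c, by rw [hc, Algebra.smul_def, mul_one]⟩
    have h3 := Submodule.finrank_mono hle
    have h4 : finrank K (Submodule.span K {(1 : F)}) ≤ 1 := by
      simpa using finrank_span_le_card (R := K) ({(1 : F)} : Set F)
    omega
  have hf0 : f ≠ 0 := fun h => hfc 0 (by rw [h, map_zero])
  refine ⟨f, hf, ?_, fun P hP => ?_⟩
  · intro halg
    obtain ⟨c, hc⟩ := v27rr_halg_of_isAlgClosed f halg
    exact hfc c hc.symm
  · have hmem := (mem_riemannRochSpace_iff.1 hf P).resolve_left hf0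
    by_contra hne
    have hlt : -A1 P + 1 ≤ P.ord f := by omega
    have hP1 : 1 ≤ A1 P := by
      have : (0 : ℤ) ≤ A1 P := hA10 P
      omega
    -- then `f ∈ L(A₁ - P)`, which consists of constants
    have hA2 : 0 ≤ A1 - Finsupp.single P 1 := by
      rw [sub_nonneg, Finsupp.le_def]
      intro v
      rw [Finsupp.single_apply]
      split_ifs with hv
      · subst hv; exact hP1
      · exact hA10 v
    have hf2 : f ∈ riemannRochSpace (A1 - Finsupp.single P 1) := by
      rw [mem_riemannRochSpace_iff]
      intro v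
      right
      by_cases hv : v = P
      · subst hv
        rw [Finsupp.sub_apply, Finsupp.single_eq_same]
        omega
      · rw [Finsupp.sub_apply, Finsupp.single_eq_of_ne hv, sub_zero]
        exact (mem_riemannRochSpace_iff.1 hf v).resolve_left hf0
    obtain ⟨c, hc⟩ := mwgt_eq_algebraMap_of_finrank_eq_one R hA2 (hbpf P) hf2
    exact hfc c hc

/-- order of `f - c` at a pole of `f`. -/
theorem mwgt_ord_sub_algebraMap_of_neg (v : Place K F) {f : F} (hv : v.ord f < 0) (c : K) :
    v.ord (f - algebraMap K F c) = v.ord f := by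
  have hf0 : f ≠ 0 := fun h => by rw [h, Place.ord_zero] at hv; exact lt_irrefl _ hv
  have hne : f - algebraMap K F c ≠ 0 := by
    intro h
    rw [sub_eq_zero] at h
    rw [h, PlaceOrd.ord_algebraMap] at hv
    exact lt_irrefl _ hv
  have h1 := PlaceOrd.min_le_ord_add v (f := f) (g := -algebraMap K F c)
    (by rwa [← sub_eq_add_neg])
  rw [PlaceOrd.ord_neg, PlaceOrd.ord_algebraMap, ← sub_eq_add_neg] at h1
  have h2 := PlaceOrd.min_le_ord_add v (f := f - algebraMap K F c) (g := algebraMap K F c)
    (by rwa [sub_add_cancel])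
  rw [sub_add_cancel, PlaceOrd.ord_algebraMap] at h2
  rcases min_le_iff.1 h2 with h | h
  · have : min (v.ord f) 0 = v.ord f := min_eq_left hv.le
    omega
  · omega

/-- **the fibre divisor** `D₂ = div(f - c) + A₁ - R'`. -/
theorem mwgt_fibre [HasPrincipalDivisors K F] (hdeg1 : ∀ v : Place K F, v.deg = 1)
    {A1 : Divisor K F} (hA1 : 0 ≤ A1) {f : F}
    (hf : f ∈ riemannRochSpace A1) (hpole : ∀ P : Place K F, A1 P ≠ 0 → P.ord f = -A1 P)
    {R' : Place K F} {c : K} (hR' : A1 R' = 0) (hc : 0 < R'.ord (f - algebraMap K F c)) :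
    0 ≤ v27d_div K (f - algebraMap K F c) + A1 - Finsupp.single R' 1 ∧
    Divisor.degree (v27d_div K (f - algebraMap K F c) + A1 - Finsupp.single R' 1) =
      Divisor.degree A1 - 1 ∧
    (∀ v : Place K F, A1 v ≠ 0 →
      (v27d_div K (f - algebraMap K F c) + A1 - Finsupp.single R' 1 : Divisor K F) v = 0) ∧
    (∀ v : Place K F, A1 v = 0 → v ≠ R' →
      (v27d_div K (f - algebraMap K F c) + A1 - Finsupp.single R' 1 : Divisor K F) v =
        v.ord (f - algebraMap K F c)) ∧
    (v27d_div K (f - algebraMap K F c) + A1 - Finsupp.single R' 1 : Divisor K F) R' =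
      R'.ord (f - algebraMap K F c) - 1 := by
  classical
  have hne : f - algebraMap K F c ≠ 0 := by
    intro h
    rw [h, Place.ord_zero] at hc
    exact lt_irrefl _ hc
  have hf0 : f ≠ 0 := by
    intro h
    rw [h, zero_sub, PlaceOrd.ord_neg, PlaceOrd.ord_algebraMap] at hc
    exact lt_irrefl _ hc
  have hval : ∀ v : Place K F,
      (v27d_div K (f - algebraMap K F c) + A1 - Finsupp.single R' 1 : Divisor K F) v =
        v.ord (f - algebraMap K F c) + A1 v - if v = R' then 1 else 0 := by
    intro v
    rw [Finsupp.sub_apply, Finsupp.add_apply, v27d_div_apply', Finsupp.single_apply]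
    by_cases hv : R' = v
    · subst hv; simp
    · rw [if_neg hv, if_neg (Ne.symm hv)]
  have hon : ∀ v : Place K F, A1 v ≠ 0 →
      (v27d_div K (f - algebraMap K F c) + A1 - Finsupp.single R' 1 : Divisor K F) v = 0 := by
    intro v hv
    have hvR : v ≠ R' := fun h => hv (h ▸ hR')
    have hlt : v.ord f < 0 := by
      rw [hpole v hv]
      have : (0 : ℤ) ≤ A1 v := hA1 v
      omega
    rw [hval v, if_neg hvR, mwgt_ord_sub_algebraMap_of_neg v hlt, hpole v hv]
    ring
  have hoff : ∀ v : Place K F, A1 v = 0 → v ≠ R' →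
      (v27d_div K (f - algebraMap K F c) + A1 - Finsupp.single R' 1 : Divisor K F) v =
        v.ord (f - algebraMap K F c) := by
    intro v hv hvR
    rw [hval v, hv, add_zero, if_neg hvR, sub_zero]
  have hat : (v27d_div K (f - algebraMap K F c) + A1 - Finsupp.single R' 1 : Divisor K F) R' =
      R'.ord (f - algebraMap K F c) - 1 := by
    rw [hval R', hR', add_zero, if_pos rfl]
  refine ⟨?_, ?_, hon, hoff, hat⟩
  · intro v
    show (0 : ℤ) ≤ _
    by_cases hv : A1 v = 0
    · by_cases hvR : v = R'
      · subst hvR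
        rw [hat]
        omega
      · rw [hoff v hv hvR]
        -- `f - c` is regular at `v`
        have hfv : 0 ≤ v.ord f := by
          have := (mem_riemannRochSpace_iff.1 hf v).resolve_left hf0
          rw [hv] at this
          simpa using this
        have := PlaceOrd.min_le_ord_add v (f := f) (g := -algebraMap K F c)
          (by rwa [← sub_eq_add_neg])
        rw [PlaceOrd.ord_neg, PlaceOrd.ord_algebraMap, ← sub_eq_add_neg] at this
        exact le_trans (le_min hfv le_rfl) this
    · rw [hon v hv]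
  · rw [map_sub, map_add, v27d_degree_div, zero_add, Divisor.degree_single, hdeg1 R']
    simp

end Fermat.Agent.MW
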