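import Mathlib
import Fermat.Agent.S24.RiemannHurwitz

/-!
# S17 (heights), leaf "generic translate", part 1: a uniform Riemann–Hurwitz bound

`F / K` a function field of one variable over an algebraically closed field of characteristic
zero, `t` a separating generator such that the Kähler differential `dt` has a divisor `D0`.
Then for EVERY non-constant `f : F` the differential `df` has a divisor of the same degree
`κ = deg D0` (`mwgt_divisor_D`), and the set of places where some `f - a` vanishes to order `≥ 2`
is finite of cardinality `≤ κ + 2 [F : K(f)]` (`mwgt_ram`).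
No comparison between the Kähler genus and `genusFF` is needed: `κ` is a constant of the curve.
-/

set_option autoImplicit false
set_option linter.unusedSectionVars false
set_option linter.unusedVariables false
set_option linter.style.haveILetI false

noncomputable section

namespace Fermat.Agent.MW

open AlgebraicCurve IntermediateField KaehlerDifferential Fermat.Agent.S24

variable {K F : Type*} [Field K] [Field F] [Algebra K F] [IsAlgClosed K] [CharZero K]

/-- the divisor of `df`, from the divisor of `dt`: same degree. -/
theorem mwgt_divisor_D {t : F} (ht : IsSepGen K t) (D0 : Divisor K F)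
    (hD0 : ∀ v : Place K F, D0 v = v.ordDifferential (D K F t)) {f : F}
    (hf : Transcendental K f) :
    ∃ E : Divisor K F, (∀ v : Place K F, E v = v.ordDifferential (D K F f)) ∧
      Divisor.degree E = Divisor.degree D0 := by
  classical
  haveI := ht.finite
  haveI := ht.separable
  haveI : Nontrivial Ω[F⁄K] := nontrivial_kaehler_of_isSepGen ht
  have hfg : IsSepGen K f := ht.of_transcendental hf
  have hgen : ∀ v : Place K F, v.DCoordGenerates := fun v =>
    place_dCoordGenerates v ht.transcendental
  obtain ⟨c, hc⟩ := kaehlerRank_exists_eq_smul (K := K) (x := t) (D K F f)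
  have hdf : D K F f ≠ 0 := by
    haveI := hfg.finite
    haveI := hfg.separable
    exact kaehlerRank_D_ne_zero hfg.transcendental
  have hc0 : c ≠ 0 := by
    rintro rfl
    rw [zero_smul] at hc
    exact hdf hc
  have hdt : D K F t ≠ 0 := kaehlerRank_D_ne_zero ht.transcendental
  haveI := ht.hasPrincipalDivisors
  obtain ⟨Dc, hDc, hdegc⟩ := HasPrincipalDivisors.exists_divisor (K := K) c hc0
  refine ⟨D0 + Dc, fun v => ?_, by rw [map_add, hdegc, add_zero]⟩
  haveI := hgen v
  rw [Finsupp.add_apply, hD0 v, hDc v, hc,
    v.ordDifferential_smul hc0 (rh_differentialCoeff_ne_zero v hdt)]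
  ring

/-- **uniform Riemann–Hurwitz bound**: the places where `f` is ramified (over a finite value)
form a finite set of at most `deg D0 + 2 [F : K(f)]` elements. -/
theorem mwgt_ram {t : F} (ht : IsSepGen K t) (D0 : Divisor K F)
    (hD0 : ∀ v : Place K F, D0 v = v.ordDifferential (D K F t)) {f : F}
    (hf : Transcendental K f) :
    ∃ S : Finset (Place K F),
      (S.card : ℤ) ≤ Divisor.degree D0 + 2 * (Module.finrank K⟮f⟯ F : ℤ) ∧
      ∀ (v : Place K F) (a : K), 2 ≤ v.ord (f - algebraMap K F a) → v ∈ S := by
  classical
  have hfg : IsSepGen K f := ht.of_transcendental hf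
  obtain ⟨E, hE, hdeg⟩ := mwgt_divisor_D ht D0 hD0 hf
  set n : ℤ := (Module.finrank K⟮f⟯ F : ℤ) with hn
  -- value of `E` at a pole and at a finite place
  have hpole : ∀ v : Place K F, v.ord f < 0 → E v = v.ord f - 1 := fun v hv => by
    rw [hE v, rh_ordDifferential_of_pole hfg v hv]
  have hfin : ∀ v : Place K F, 0 ≤ v.ord f → ∃ a : K, 0 < v.ord (f - algebraMap K F a) ∧
      E v = v.ord (f - algebraMap K F a) - 1 := fun v hv => by
    obtain ⟨a, ha, -⟩ := hfg.existsUnique_ord_sub_pos v hv
    exact ⟨a, ha, by rw [hE v, rh_ordDifferential_of_center hfg v a ha]⟩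
  have hfin_nonneg : ∀ v : Place K F, 0 ≤ v.ord f → 0 ≤ E v := fun v hv => by
    obtain ⟨a, ha, h⟩ := hfin v hv
    omega
  set P : Finset (Place K F) := rh_fiberInf hfg with hP
  set S : Finset (Place K F) := E.support \ P with hS
  have hPsub : P ⊆ E.support := by
    intro v hv
    have hv' := (rh_mem_fiberInf hfg v).1 hv
    rw [Finsupp.mem_support_iff, hpole v hv']
    omega
  refine ⟨S, ?_, fun v a hva => ?_⟩
  · -- the count
    have hdegE : Divisor.degree E = ∑ v ∈ E.support, E v := by
      rw [pp_degree_eq_sum E E.support (Finset.Subset.refl _)]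
      refine Finset.sum_congr rfl fun v _ => ?_
      rw [hfg.deg_eq_one v, Nat.cast_one, mul_one]
    have hsplit : ∑ v ∈ E.support, E v = ∑ v ∈ S, E v + ∑ v ∈ P, E v := by
      rw [hS, Finset.sum_sdiff hPsub]
    have hPsum : ∑ v ∈ P, E v = -n - (P.card : ℤ) := by
      have : ∀ v ∈ P, E v = v.ord f - 1 := fun v hv =>
        hpole v ((rh_mem_fiberInf hfg v).1 hv)
      rw [Finset.sum_congr rfl this, Finset.sum_sub_distrib, rh_sum_fiberInf hfg,
        Finset.sum_const]
      simp [hn]
    have hPcard : (P.card : ℤ) ≤ n := by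
      have h1 : ∑ v ∈ P, (1 : ℤ) ≤ ∑ v ∈ P, -(v.ord f) := by
        refine Finset.sum_le_sum fun v hv => ?_
        have := (rh_mem_fiberInf hfg v).1 hv
        omega
      rw [Finset.sum_neg_distrib, rh_sum_fiberInf hfg] at h1
      simpa [hn] using h1
    have hScard : (S.card : ℤ) ≤ ∑ v ∈ S, E v := by
      rw [Finset.card_eq_sum_ones, Nat.cast_sum]
      refine Finset.sum_le_sum fun v hv => ?_
      rw [hS, Finset.mem_sdiff] at hv
      have hnp : ¬ v.ord f < 0 := fun h => hv.2 ((rh_mem_fiberInf hfg v).2 h)
      have h0 := hfin_nonneg v (not_lt.1 hnp)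
      have hne : E v ≠ 0 := Finsupp.mem_support_iff.1 hv.1
      push_cast
      omega
    rw [← hdeg, hdegE, hsplit, hPsum]
    linarith
  · -- ramified places are in `S`
    have hpos : 0 < v.ord (f - algebraMap K F a) := by omega
    have hnp : ¬ v.ord f < 0 := fun h => rh_not_pos_of_pole hfg v h a hpos
    have hEv : E v = v.ord (f - algebraMap K F a) - 1 := by
      rw [hE v, rh_ordDifferential_of_center hfg v a hpos]
    rw [hS, Finset.mem_sdiff, Finsupp.mem_support_iff]
    refine ⟨by omega, fun h => hnp ((rh_mem_fiberInf hfg v).1 h)⟩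

end Fermat.Agent.MW
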