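import Mathlib
import Fermat.Agent.MW.GT.Ram
import Fermat.Agent.MW.GT.Pencil

/-!
# S17 (heights), leaf "generic translate": assembly

`mwgt_main` : on a function field `F / K` (`K` algebraically closed of characteristic zero) with a
Riemann–Roch package of genus `g` and a separating generator `t` whose differential has a divisor,
there is a bound `B` such that for EVERY finite set `Pts` of at least `B` places and every divisor
`Z` of degree `0` there are an effective `A` supported on `Pts` of degree `≤ g`, two places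
`R1 R2 ∈ Pts` and an effective divisor `D` with
`[Z] + [A - (deg A) P0] + [R1 - R2] = [D - g P0]`, `D` REDUCED, `deg D = g`, `l(D) = 1`,
`P0 ∉ D` and `D` disjoint from a prescribed finite set `Sig`.
-/

set_option autoImplicit false
set_option linter.unusedSectionVars false
set_option linter.unusedVariables false
set_option linter.style.haveILetI false

noncomputable section

namespace Fermat.Agent.MW

open AlgebraicCurve Module IntermediateField KaehlerDifferential
  Fermat.Agent.V.RR Fermat.Agent.V.Dual Fermat.Agent.MW17 Fermat.Agent.S24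

variable {K F : Type*} [Field K] [Field F] [Algebra K F] {g : ℕ}

/-- `dim L` only depends on the linear equivalence class. -/
theorem mwgt_finrank_of_sub_eq_div [HasPrincipalDivisors K F] {D D' : Divisor K F} {u : F}
    (hu : u ≠ 0) (hdiv : D' - D = v27d_div K u) :
    finrank K (riemannRochSpace D') = finrank K (riemannRochSpace D) := by
  have hd : ∀ v : Place K F, (D' - D) v = v.ord u := fun v => by
    rw [hdiv, v27d_div_apply']
  refine LinearEquiv.finrank_eq
    { toFun := fun s => ⟨(s : F) * u, ?_⟩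
      invFun := fun s => ⟨(s : F) * u⁻¹, ?_⟩
      left_inv := fun s => Subtype.ext (by
        show (s : F) * u * u⁻¹ = (s : F)
        rw [mul_assoc, mul_inv_cancel₀ hu, mul_one])
      right_inv := fun s => Subtype.ext (by
        show (s : F) * u⁻¹ * u = (s : F)
        rw [mul_assoc, inv_mul_cancel₀ hu, mul_one])
      map_add' := fun a b => Subtype.ext (add_mul (a : F) (b : F) u)
      map_smul' := fun c a => Subtype.ext (smul_mul_assoc c (a : F) u) }
  · have hs := mem_riemannRochSpace_iff.mp s.2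
    rw [mem_riemannRochSpace_iff]
    intro v
    rcases eq_or_ne (s : F) 0 with h0 | h0
    · left; rw [h0, zero_mul]
    · right
      rw [v.ord_mul h0 hu, ← hd, Finsupp.sub_apply]
      have := (hs v).resolve_left h0
      linarith
  · have hs := mem_riemannRochSpace_iff.mp s.2
    rw [mem_riemannRochSpace_iff]
    intro v
    rcases eq_or_ne (s : F) 0 with h0 | h0
    · left; rw [h0, zero_mul]
    · right
      rw [v.ord_mul h0 (inv_ne_zero hu), v.ord_inv, ← hd, Finsupp.sub_apply]
      have := (hs v).resolve_left h0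
      linarith

/-- `l(D) ≤ l(D - P) + 1` for a place of degree one. -/
theorem mwgt_finrank_le_sub_single_add_one (R : V27RR K F g) (D : Divisor K F) {P : Place K F}
    (hP : P.deg = 1) :
    finrank K (riemannRochSpace D) ≤ finrank K (riemannRochSpace (D - Finsupp.single P 1)) + 1 := by
  obtain ⟨W, hW, -, -, hRR⟩ := R.can
  have h1 := hRR D
  have h2 := hRR (D - Finsupp.single P 1)
  rw [map_sub, Divisor.degree_single, hP] at h2
  haveI := R.finL (W - (D - Finsupp.single P 1))
  have hm : finrank K (riemannRochSpace (W - D)) ≤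
      finrank K (riemannRochSpace (W - (D - Finsupp.single P 1))) := by
    refine Submodule.finrank_mono (v27rr_rrSpace_mono ?_)
    have : W - (D - Finsupp.single P 1) = W - D + Finsupp.single P 1 := by abel
    rw [this]
    exact le_add_of_nonneg_right (Finsupp.single_nonneg.mpr zero_le_one)
  have hm' : (finrank K (riemannRochSpace (W - D)) : ℤ) ≤
      finrank K (riemannRochSpace (W - (D - Finsupp.single P 1))) := by exact_mod_cast hm
  push_cast at h2
  have : (finrank K (riemannRochSpace D) : ℤ) ≤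
      finrank K (riemannRochSpace (D - Finsupp.single P 1)) + 1 := by linarith
  exact_mod_cast this

/-- **the minimal representative**: for `deg Z = 0` there are `r ≤ g` and `s ≠ 0` with
`Z + r P0 + div s ≥ 0` and `l = 1`. -/
theorem mwgt_minimal (R : V27RR K F g) (P0 : Place K F) (hP0 : P0.deg = 1) {Z : Divisor K F}
    (hZ : Divisor.degree Z = 0) :
    haveI := R.hasDiv
    ∃ (r : ℕ) (s : F), s ≠ 0 ∧ r ≤ g ∧
      0 ≤ Z + (r : ℤ) • Finsupp.single P0 (1 : ℤ) + v27d_div K s ∧
      Divisor.degree (Z + (r : ℤ) • Finsupp.single P0 (1 : ℤ) + v27d_div K s) = r ∧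
      finrank K (riemannRochSpace (Z + (r : ℤ) • Finsupp.single P0 (1 : ℤ) + v27d_div K s)) = 1 := by
  classical
  haveI := R.hasDiv
  have hdegr : ∀ r : ℕ, Divisor.degree (Z + (r : ℤ) • Finsupp.single P0 (1 : ℤ)) = r := by
    intro r
    rw [map_add, hZ, zero_add, map_zsmul, Divisor.degree_single, hP0]
    simp
  have hex : ∃ r : ℕ, riemannRochSpace (Z + (r : ℤ) • Finsupp.single P0 (1 : ℤ)) ≠ ⊥ := by
    refine ⟨g, ?_⟩
    obtain ⟨f, hf0, hf⟩ := R.exists_ne_zero_mem
      (D := Z + (g : ℤ) • Finsupp.single P0 (1 : ℤ)) (by rw [hdegr g])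
    intro h
    rw [h, Submodule.mem_bot] at hf
    exact hf0 hf
  set r := Nat.find hex with hr
  have hrne : riemannRochSpace (Z + (r : ℤ) • Finsupp.single P0 (1 : ℤ)) ≠ ⊥ := Nat.find_spec hex
  have hrg : r ≤ g := Nat.find_min' hex (by
    obtain ⟨f, hf0, hf⟩ := R.exists_ne_zero_mem
      (D := Z + (g : ℤ) • Finsupp.single P0 (1 : ℤ)) (by rw [hdegr g])
    intro h
    rw [h, Submodule.mem_bot] at hf
    exact hf0 hf)
  haveI := R.finL (Z + (r : ℤ) • Finsupp.single P0 (1 : ℤ))
  -- `l = 1`
  have hl1 : finrank K (riemannRochSpace (Z + (r : ℤ) • Finsupp.single P0 (1 : ℤ))) = 1 := by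
    have hpos : 0 < finrank K (riemannRochSpace (Z + (r : ℤ) • Finsupp.single P0 (1 : ℤ))) := by
      rw [Module.finrank_pos_iff_exists_ne_zero]
      obtain ⟨f, hf, hf0⟩ := Submodule.exists_mem_ne_zero_of_ne_bot hrne
      exact ⟨⟨f, hf⟩, fun h => hf0 (congrArg Subtype.val h)⟩
    have hle := mwgt_finrank_le_sub_single_add_one R
      (Z + (r : ℤ) • Finsupp.single P0 (1 : ℤ)) hP0
    by_contra hne
    have h2 : 0 < finrank K (riemannRochSpace
        (Z + (r : ℤ) • Finsupp.single P0 (1 : ℤ) - Finsupp.single P0 1)) := by omega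
    have hne' : riemannRochSpace
        (Z + (r : ℤ) • Finsupp.single P0 (1 : ℤ) - Finsupp.single P0 1) ≠ ⊥ := by
      intro h
      rw [h, finrank_bot] at h2
      exact lt_irrefl _ h2
    rcases Nat.eq_zero_or_pos r with h0 | h0
    · -- negative degree
      apply hne'
      apply R.neg
      rw [map_sub, hdegr r, Divisor.degree_single, hP0, h0]
      simp
    · have hlt : r - 1 < r := by omega
      apply Nat.find_min hex hlt
      have : Z + ((r - 1 : ℕ) : ℤ) • Finsupp.single P0 (1 : ℤ) =
          Z + (r : ℤ) • Finsupp.single P0 (1 : ℤ) - Finsupp.single P0 1 := by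
        have h1 : ((r - 1 : ℕ) : ℤ) = (r : ℤ) - 1 := by omega
        rw [h1, sub_smul, one_smul]
        abel
      rw [this]
      exact hne'
  obtain ⟨s, hs, hs0⟩ := Submodule.exists_mem_ne_zero_of_ne_bot hrne
  refine ⟨r, s, hs0, hrg, ?_, ?_, ?_⟩
  · have := (v27d_mem_rrSpace_iff hs0).1 hs
    have h2 : (0 : Divisor K F) = -(Z + (r : ℤ) • Finsupp.single P0 (1 : ℤ)) +
        (Z + (r : ℤ) • Finsupp.single P0 (1 : ℤ)) := by abel
    rw [h2, add_comm (Z + (r : ℤ) • Finsupp.single P0 (1 : ℤ)) (v27d_div K s)]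
    exact add_le_add_left this _
  · rw [map_add, hdegr r, v27d_degree_div, add_zero]
  · rw [← hl1]
    exact mwgt_finrank_of_sub_eq_div hs0 (by abel)

/-- the finite fibre of `f` through a place `w`, as a finset of at most `[F : K(f)]` places. -/
theorem mwgt_exists_fibre [IsAlgClosed K] [CharZero K] {f : F} (hfg : IsSepGen K f)
    (w : Place K F) :
    ∃ T : Finset (Place K F), T.card ≤ Module.finrank K⟮f⟯ F ∧
      ∀ (v : Place K F) (a : K), 0 < w.ord (f - algebraMap K F a) →
        0 < v.ord (f - algebraMap K F a) → v ∈ T := by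
  classical
  by_cases hw : 0 ≤ w.ord f
  · obtain ⟨a, ha, huniq⟩ := hfg.existsUnique_ord_sub_pos w hw
    refine ⟨rh_fiber hfg a, ?_, fun v a' hwa hva => ?_⟩
    · have hsum := rh_sum_fiber hfg a
      have h1 : ∑ v ∈ rh_fiber hfg a, (1 : ℤ) ≤
          ∑ v ∈ rh_fiber hfg a, v.ord (f - algebraMap K F a) := by
        refine Finset.sum_le_sum fun v hv => ?_
        have := (rh_mem_fiber hfg a v).1 hv
        omega
      rw [hsum] at h1
      simp only [Finset.sum_const, nsmul_eq_mul, mul_one] at h1
      exact_mod_cast h1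
    · have : a' = a := huniq a' hwa
      subst this
      exact (rh_mem_fiber hfg a' v).2 hva
  · refine ⟨∅, Nat.zero_le _, fun v a hwa _ => ?_⟩
    exact absurd hwa (rh_not_pos_of_pole hfg w (not_le.1 hw) a)

/-- **the generic translate lemma.** -/
theorem mwgt_main [IsAlgClosed K] [CharZero K] (R : V27RR K F g) {t : F} (ht : IsSepGen K t)
    (D0 : Divisor K F) (hD0 : ∀ v : Place K F, D0 v = v.ordDifferential (D K F t))
    (P0 : Place K F) (Sig : Finset (Place K F)) :
    ∃ B : ℕ, ∀ Pts : Finset (Place K F), B ≤ Pts.card →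
      ∀ Z : Divisor K F, Divisor.degree Z = 0 →
        ∃ (A : Divisor K F) (R1 R2 : Place K F) (E : Divisor K F),
          0 ≤ A ∧ (∀ v, A v ≠ 0 → v ∈ Pts) ∧ Divisor.degree A ≤ g ∧ R1 ∈ Pts ∧ R2 ∈ Pts ∧
          0 ≤ E ∧ (∀ v, E v ≤ 1) ∧ Divisor.degree E = g ∧
          finrank K (riemannRochSpace E) = 1 ∧ E P0 = 0 ∧ (∀ s ∈ Sig, E s = 0) ∧
          Divisor.IsPrincipal (E - (g : ℤ) • Finsupp.single P0 (1 : ℤ) -
            (Z + (A - Divisor.degree A • Finsupp.single P0 (1 : ℤ)) +
              (Finsupp.single R1 (1 : ℤ) - Finsupp.single R2 (1 : ℤ)))) := by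
  classical
  haveI := R.hasDiv
  have hdeg1 : ∀ v : Place K F, v.deg = 1 := fun v => ht.deg_eq_one v
  set κ : ℕ := (Divisor.degree D0).toNat with hκ
  set M : ℕ := κ + 2 * (g + 1) + Sig.card + 1 with hM
  refine ⟨2 * g + g * g + (g + 1) * (M + 1) + 1, fun Pts hPts Z hZ => ?_⟩
  -- Step 0: the minimal representative
  obtain ⟨r, s, hs0, hrg, hF0, hFdeg, hFl⟩ := mwgt_minimal R P0 (hdeg1 P0) hZ
  set F0 : Divisor K F := Z + (r : ℤ) • Finsupp.single P0 (1 : ℤ) + v27d_div K s with hF0def
  -- Step 1: greedy completion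
  obtain ⟨A, hA0, hAP, hAdeg, hAl⟩ := mw17_completion R Pts
    (by
      have : (2 * g : ℤ) ≤ Pts.card := by
        have : 2 * g ≤ Pts.card := by omega
        exact_mod_cast this
      linarith)
    (fun P _ => hdeg1 P) hFl (g - r) (by rw [hFdeg]; push_cast [hrg]; omega)
  set D1 : Divisor K F := F0 + A with hD1def
  have hD10 : 0 ≤ D1 := add_nonneg hF0 hA0
  have hD1deg : Divisor.degree D1 = g := by
    rw [hD1def, map_add, hFdeg, hAdeg]
    push_cast [hrg]
    ring
  -- Step 2: a base-point-free pencil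
  obtain ⟨S, hScard, hSsupp, hbpf⟩ := mwgt_pencil_bpf R hdeg1 hD10 hD1deg hAl
  obtain ⟨R0, hR0P, hR0S⟩ := Finset.exists_mem_notMem_of_card_lt_card
    (s := S) (t := Pts) (by omega)
  have hD1R0 : D1 R0 = 0 := by
    by_contra h
    exact hR0S (hSsupp R0 h)
  obtain ⟨f, hfL, hftr, hfpole⟩ := mwgt_pencil_fn R hD10 hD1deg hAl (hdeg1 R0) (hbpf R0 hR0S)
  set A1 : Divisor K F := D1 + Finsupp.single R0 1 with hA1def
  have hA10 : 0 ≤ A1 := add_nonneg hD10 (Finsupp.single_nonneg.mpr zero_le_one)
  have hA1deg : Divisor.degree A1 = (g : ℤ) + 1 := by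
    rw [hA1def, map_add, hD1deg, Divisor.degree_single, hdeg1 R0]
    simp
  have hfg : IsSepGen K f := ht.of_transcendental hftr
  have hf0 : f ≠ 0 := fun h => hftr (h ▸ isAlgebraic_zero)
  -- the degree of `f`
  have hn : Module.finrank K⟮f⟯ F = g + 1 := by
    have hsum := rh_sum_fiberInf hfg
    have hsub : rh_fiberInf hfg = A1.support := by
      ext v
      rw [rh_mem_fiberInf, Finsupp.mem_support_iff]
      constructor
      · intro hv hA
        have := (mem_riemannRochSpace_iff.1 hfL v).resolve_left hf0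
        rw [hA] at this
        omega
      · intro hv
        rw [hfpole v hv]
        have : (0 : ℤ) ≤ A1 v := hA10 v
        omega
    have hdeg : Divisor.degree A1 = ∑ v ∈ A1.support, A1 v := by
      rw [pp_degree_eq_sum A1 A1.support (Finset.Subset.refl _)]
      refine Finset.sum_congr rfl fun v _ => ?_
      rw [hdeg1 v, Nat.cast_one, mul_one]
    have h2 : ∑ v ∈ rh_fiberInf hfg, v.ord f = -∑ v ∈ A1.support, A1 v := by
      rw [hsub, ← Finset.sum_neg_distrib]
      exact Finset.sum_congr rfl fun v hv => hfpole v (Finsupp.mem_support_iff.1 hv)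
    rw [h2, ← hdeg, hA1deg] at hsum
    have : (Module.finrank K⟮f⟯ F : ℤ) = (g : ℤ) + 1 := by linarith
    exact_mod_cast this
  -- Step 3: the ramified places
  obtain ⟨Sram, hSramcard, hSram⟩ := mwgt_ram ht D0 hD0 hftr
  have hSramcard' : Sram.card ≤ κ + 2 * (g + 1) := by
    rw [hn] at hSramcard
    have h1 : Divisor.degree D0 ≤ (κ : ℤ) := Int.self_le_toNat _
    have : (Sram.card : ℤ) ≤ (κ : ℤ) + 2 * ((g : ℤ) + 1) := by push_cast at hSramcard; linarith
    exact_mod_cast this
  -- the bad set for `R'`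
  have hfib := fun w : Place K F => mwgt_exists_fibre hfg w
  choose Fib hFibcard hFib using hfib
  set W : Finset (Place K F) := Sram ∪ insert P0 Sig with hWdef
  have hWcard : W.card ≤ M := by
    calc W.card ≤ Sram.card + (insert P0 Sig).card := Finset.card_union_le _ _
      _ ≤ (κ + 2 * (g + 1)) + (Sig.card + 1) :=
          add_le_add hSramcard' (Finset.card_insert_le _ _)
      _ = M := by rw [hM]; ring
  set T : Finset (Place K F) := A1.support ∪ W.biUnion Fib with hTdef
  have hTcard : T.card < Pts.card := by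
    have h1 : (A1.support.card : ℤ) ≤ (g : ℤ) + 1 := by
      have := mw17_card_support_le (fun v => by rw [hdeg1 v]; exact one_pos) hA10
      rwa [hA1deg] at this
    have h1' : A1.support.card ≤ g + 1 := by exact_mod_cast h1
    have h2 : (W.biUnion Fib).card ≤ W.card * (g + 1) := by
      refine (Finset.card_biUnion_le).trans ?_
      rw [← smul_eq_mul, ← Finset.sum_const]
      refine Finset.sum_le_sum fun w _ => ?_
      have := hFibcard w
      rwa [hn] at this
    have h3 : T.card ≤ (g + 1) + M * (g + 1) :=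
      (Finset.card_union_le _ _).trans
        (add_le_add h1' (h2.trans (Nat.mul_le_mul_right _ hWcard)))
    have h4 : (g + 1) + M * (g + 1) = (g + 1) * (M + 1) := by ring
    omega
  obtain ⟨R', hR'P, hR'T⟩ := Finset.exists_mem_notMem_of_card_lt_card hTcard
  rw [hTdef, Finset.mem_union, not_or] at hR'T
  have hA1R' : A1 R' = 0 := by
    by_contra h
    exact hR'T.1 (Finsupp.mem_support_iff.2 h)
  have hR'fib : ∀ w ∈ W, ∀ a : K, 0 < w.ord (f - algebraMap K F a) →
      ¬ 0 < R'.ord (f - algebraMap K F a) := by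
    intro w hw a hwa hR'a
    exact hR'T.2 (Finset.mem_biUnion.2 ⟨w, hw, hFib w R' a hwa hR'a⟩)
  -- the value of `f` at `R'`
  have hR'reg : 0 ≤ R'.ord f := by
    have := (mem_riemannRochSpace_iff.1 hfL R').resolve_left hf0
    rw [hA1R'] at this
    simpa using this
  obtain ⟨c, hc, -⟩ := hfg.existsUnique_ord_sub_pos R' hR'reg
  have hfc0 : f - algebraMap K F c ≠ 0 := rh_sub_ne_zero hfg c
  obtain ⟨hE0, hEdeg, hEon, hEoff, hEat⟩ :=
    mwgt_fibre hdeg1 hA10 hfL hfpole hA1R' hc
  set E : Divisor K F := v27d_div K (f - algebraMap K F c) + A1 - Finsupp.single R' 1 with hEdef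
  -- orders of `f - c` are at most one
  have hord_le : ∀ v : Place K F, v.ord (f - algebraMap K F c) ≤ 1 := by
    intro v
    by_contra h
    have h2 : 2 ≤ v.ord (f - algebraMap K F c) := by omega
    have hvS : v ∈ W := Finset.mem_union_left _ (hSram v c h2)
    exact hR'fib v hvS c (by omega) hc
  have hord_R' : R'.ord (f - algebraMap K F c) = 1 := by
    have := hord_le R'
    omega
  -- vanishing of `E` at a place of `W`
  have hEW : ∀ w ∈ W, E w = 0 := by
    intro w hw
    by_cases hwA : A1 w = 0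
    · by_cases hwR : w = R'
      · rw [hwR, hEat, hord_R']; rfl
      · rw [hEoff w hwA hwR]
        have h1 : ¬ 0 < w.ord (f - algebraMap K F c) := fun h => hR'fib w hw c h hc
        have h2 : (0 : ℤ) ≤ E w := hE0 w
        rw [hEoff w hwA hwR] at h2
        omega
    · exact hEon w hwA
  refine ⟨A, R0, R', E, hA0, hAP, ?_, hR0P, hR'P, hE0, ?_, ?_, ?_, ?_, ?_, ?_⟩
  · rw [hAdeg]
    exact_mod_cast Nat.sub_le g r
  · -- reduced
    intro v
    by_cases hvA : A1 v = 0
    · by_cases hvR : v = R'
      · rw [hvR, hEat, hord_R']; norm_num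
      · rw [hEoff v hvA hvR]
        exact hord_le v
    · rw [hEon v hvA]; norm_num
  · rw [hEdeg, hA1deg]; ring
  · -- `l(E) = 1`
    rw [← hbpf R0 hR0S R']
    exact mwgt_finrank_of_sub_eq_div hfc0 (by rw [hEdef, hA1def]; abel)
  · exact hEW P0 (Finset.mem_union_right _ (Finset.mem_insert_self _ _))
  · intro s' hs'
    exact hEW s' (Finset.mem_union_right _ (Finset.mem_insert_of_mem hs'))
  · -- the linear equivalence
    refine ⟨(f - algebraMap K F c) * s, mul_ne_zero hfc0 hs0, fun v => ?_⟩
    rw [v.ord_mul hfc0 hs0, ← v27d_div_apply' (K := K) (f - algebraMap K F c) v,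
      ← v27d_div_apply' (K := K) s v, ← Finsupp.add_apply]
    congr 1
    rw [hEdef, hA1def, hD1def, hF0def, hAdeg]
    have hgr : ((g - r : ℕ) : ℤ) = (g : ℤ) - (r : ℤ) := by omega
    rw [hgr, sub_smul]
    abel
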