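import Mathlib
import Fermat.Agent.S24.Main
import Fermat.Agent.MW.GT.Main
import Fermat.Agent.V.RR.Closed

/-!
# S17 (heights), leaf "generic translate": the modular curve `X₀(N)` over `Qbar`

* `mwgt_divisor_dj` : the Kähler differential `d j` on the function field of `X₀(N)` over `Qbar`
  has a divisor (its support lies over `j = 0, 1728, ∞`);
* `mwgt_main_X0` : `mwgt_main` for `modularFunctionFieldBar N`.
-/

set_option autoImplicit false
set_option linter.unusedSectionVars false
set_option linter.unusedVariables false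
set_option linter.style.haveILetI false

noncomputable section

namespace Fermat.Agent.MW

open AlgebraicCurve Module IntermediateField KaehlerDifferential ModularCurve
  Fermat.Agent.V.RR Fermat.Agent.S24

variable (N : ℕ) [NeZero N]

/-- the differential `d j` has a divisor. -/
theorem mwgt_divisor_dj :
    ∃ D0 : Divisor QBar ↥(modularFunctionFieldBar N),
      ∀ v : Place QBar ↥(modularFunctionFieldBar N),
        D0 v = v.ordDifferential (D QBar ↥(modularFunctionFieldBar N) (jBar N)) := by
  classical
  have hsep := isSepGen_jBar N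
  have hn := finrank_jBar N
  have h1728 : (1728 : QBar) ≠ 0 := by norm_num
  have hunr : ∀ (v : Place QBar ↥(modularFunctionFieldBar N)) (a : QBar),
      a ≠ 0 → a ≠ 1728 →
      0 < v.ord (jBar N - algebraMap QBar ↥(modularFunctionFieldBar N) a) →
      v.ord (jBar N - algebraMap QBar ↥(modularFunctionFieldBar N) a) = 1 := by
    intro v a ha0 ha hv
    refine main_ord_eq_one_of_card (hsep.sub_algebraMap a) ?_ v hv
    rw [card_places_generic N a ha0 ha, hsep.finrank_sub_algebraMap a, hn]
  set s : Finset (Place QBar ↥(modularFunctionFieldBar N)) :=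
    rh_fiberInf hsep ∪ (rh_fiber hsep 0 ∪ rh_fiber hsep 1728) with hs
  have hfin : (Function.support fun v : Place QBar ↥(modularFunctionFieldBar N) =>
      v.ordDifferential (D QBar ↥(modularFunctionFieldBar N) (jBar N))).Finite := by
    refine s.finite_toSet.subset fun v hv => ?_
    rw [Function.mem_support] at hv
    rw [Finset.mem_coe, hs, Finset.mem_union, Finset.mem_union]
    by_cases hpole : v.ord (jBar N) < 0
    · exact Or.inl ((rh_mem_fiberInf hsep v).2 hpole)
    · right
      obtain ⟨a, ha, -⟩ := hsep.existsUnique_ord_sub_pos v (not_lt.1 hpole)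
      by_cases ha0 : a = 0
      · left; rw [rh_mem_fiber]; rwa [ha0] at ha
      by_cases ha1 : a = 1728
      · right; rw [rh_mem_fiber]; rwa [ha1] at ha
      exfalso
      apply hv
      rw [rh_ordDifferential_of_center hsep v a ha, hunr v a ha0 ha1 ha, sub_self]
  exact ⟨Finsupp.ofSupportFinite _ hfin, fun v => rfl⟩

/-- the Riemann–Roch package of `X₀(N)` over `Qbar`. -/
theorem mwgt_rr_X0 :
    V27RR QBar ↥(modularFunctionFieldBar N) (genusFF QBar ↥(modularFunctionFieldBar N)) := by
  have hsep := isSepGen_jBar N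
  haveI := hsep.hasPrincipalDivisors
  exact v27x_rr_of_isSepGen (fun v => hsep.finite_residueField v) v27rr_halg_of_isAlgClosed hsep

/-- **the generic translate lemma for `X₀(N)` over `Qbar`.** -/
theorem mwgt_main_X0 (P0 : Place QBar ↥(modularFunctionFieldBar N))
    (Sig : Finset (Place QBar ↥(modularFunctionFieldBar N))) :
    ∃ B : ℕ, ∀ Pts : Finset (Place QBar ↥(modularFunctionFieldBar N)), B ≤ Pts.card →
      ∀ Z : Divisor QBar ↥(modularFunctionFieldBar N), Divisor.degree Z = 0 →
        ∃ (A : Divisor QBar ↥(modularFunctionFieldBar N))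
          (R1 R2 : Place QBar ↥(modularFunctionFieldBar N))
          (E : Divisor QBar ↥(modularFunctionFieldBar N)),
          0 ≤ A ∧ (∀ v, A v ≠ 0 → v ∈ Pts) ∧
          Divisor.degree A ≤ genusFF QBar ↥(modularFunctionFieldBar N) ∧ R1 ∈ Pts ∧ R2 ∈ Pts ∧
          0 ≤ E ∧ (∀ v, E v ≤ 1) ∧
          Divisor.degree E = genusFF QBar ↥(modularFunctionFieldBar N) ∧
          finrank QBar (riemannRochSpace E) = 1 ∧ E P0 = 0 ∧ (∀ s ∈ Sig, E s = 0) ∧
          Divisor.IsPrincipal
            (E - (genusFF QBar ↥(modularFunctionFieldBar N) : ℤ) • Finsupp.single P0 (1 : ℤ) -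
              (Z + (A - Divisor.degree A • Finsupp.single P0 (1 : ℤ)) +
                (Finsupp.single R1 (1 : ℤ) - Finsupp.single R2 (1 : ℤ)))) := by
  obtain ⟨D0, hD0⟩ := mwgt_divisor_dj N
  exact mwgt_main (mwgt_rr_X0 N) (isSepGen_jBar N) D0 hD0 P0 Sig
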