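import Mathlib
import Fermat.Agent.MW.GT.X0
import Fermat.Agent.G.Open.Main

/-!
# S17 (heights), leaf "generic translate": the class-level cover of `JZero N`

* `mwgtGood N P0 Sig` : the set of GOOD classes `[D - g P0]` of `JZero N` (`D` reduced effective of
  degree `g`, `l(D) = 1`, `P0 ∉ D`, `D` disjoint from `Sig`);
* `mwgt_infinite_places` : the curve has infinitely many places;
* `mwgt_cover` : a FINITE set `T` of classes such that every class has a translate by an element of
  `T` which is good;
* `mwgt_cover_field` : the same with a number field `K ≥ K₀` over which all of `T` is rational.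
-/

set_option autoImplicit false
set_option linter.unusedSectionVars false
set_option linter.unusedVariables false
set_option linter.style.haveILetI false

noncomputable section

namespace Fermat.Agent.MW

open AlgebraicCurve Module IntermediateField ModularCurve
  Fermat.Agent.V.RR Fermat.Agent.S24 Fermat.Agent.G

/-- on a curve all of whose places have degree one, a coefficient of an effective divisor is
bounded by the degree. -/
theorem mwgt_apply_le_degree {K F : Type*} [Field K] [Field F] [Algebra K F]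
    (hdeg1 : ∀ v : Place K F, v.deg = 1) {A : Divisor K F} (hA : 0 ≤ A) (v : Place K F) :
    A v ≤ Divisor.degree A := by
  classical
  have hdeg : Divisor.degree A = A.sum fun _ n => n := by
    unfold Divisor.degree
    rw [Finsupp.liftAddHom_apply]
    refine Finsupp.sum_congr fun w _ => ?_
    rw [AddMonoidHom.coe_mulRight, hdeg1 w, Nat.cast_one]
    exact mul_one _
  rw [hdeg, Finsupp.sum]
  by_cases hv : v ∈ A.support
  · exact Finset.single_le_sum (f := fun i => A i) (fun i _ => hA i) hv
  · rw [Finsupp.notMem_support_iff.1 hv]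
    exact Finset.sum_nonneg fun i _ => hA i

variable (N : ℕ) [NeZero N]

/-- the good classes `[D - g P0]`. -/
def mwgtGood (P0 : Place QBar ↥(modularFunctionFieldBar N))
    (Sig : Finset (Place QBar ↥(modularFunctionFieldBar N))) : Set (JZero N) :=
  {y | ∃ (E : Divisor QBar ↥(modularFunctionFieldBar N))
      (h : Divisor.degree
        (E - (genusFF QBar ↥(modularFunctionFieldBar N) : ℤ) • Finsupp.single P0 (1 : ℤ)) = 0),
      0 ≤ E ∧ (∀ v, E v ≤ 1) ∧
      Divisor.degree E = genusFF QBar ↥(modularFunctionFieldBar N) ∧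
      finrank QBar (riemannRochSpace E) = 1 ∧ E P0 = 0 ∧ (∀ s ∈ Sig, E s = 0) ∧
      y = Pic0.mk
        ⟨E - (genusFF QBar ↥(modularFunctionFieldBar N) : ℤ) • Finsupp.single P0 (1 : ℤ), h⟩}

/-- the curve `X₀(N)` over `Qbar` has infinitely many places. -/
theorem mwgt_infinite_places : Infinite (Place QBar ↥(modularFunctionFieldBar N)) := by
  have hsep := isSepGen_jBar N
  have hex : ∀ a : QBar, ∃ v : Place QBar ↥(modularFunctionFieldBar N),
      0 < v.ord (jBar N - algebraMap QBar ↥(modularFunctionFieldBar N) a) :=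
    fun a => (hsep.sub_algebraMap a).exists_ord_pos
  choose f hf using hex
  have hinj : Function.Injective f := by
    intro a b hab
    by_contra hne
    have hd := rh_disjoint_fiber hsep hne
    rw [Finset.disjoint_left] at hd
    refine hd ((rh_mem_fiber hsep a _).2 (hf a)) ?_
    rw [hab]
    exact (rh_mem_fiber hsep b _).2 (hf b)
  exact Infinite.of_injective f hinj

/-- the translating class attached to `(A, R1, R2)`. -/
def mwgtTrans (P0 : Place QBar ↥(modularFunctionFieldBar N))
    (A : Divisor QBar ↥(modularFunctionFieldBar N))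
    (R1 R2 : Place QBar ↥(modularFunctionFieldBar N)) : JZero N :=
  Pic0.mk ⟨A - Divisor.degree A • Finsupp.single P0 (1 : ℤ) +
      (Finsupp.single R1 (1 : ℤ) - Finsupp.single R2 (1 : ℤ)), by
    have hd := (isSepGen_jBar N).deg_eq_one
    rw [Divisor.mem_degZero, map_add, map_sub, map_sub, map_zsmul, Divisor.degree_single,
      Divisor.degree_single, Divisor.degree_single, hd P0, hd R1, hd R2]
    simp⟩

/-- **the class-level cover**: finitely many translating classes suffice to move every class of
`JZero N` into the good set. -/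
theorem mwgt_cover (P0 : Place QBar ↥(modularFunctionFieldBar N))
    (Sig : Finset (Place QBar ↥(modularFunctionFieldBar N))) :
    ∃ T : Set (JZero N), T.Finite ∧ ∀ x : JZero N, ∃ t ∈ T, x + t ∈ mwgtGood N P0 Sig := by
  classical
  have hd := (isSepGen_jBar N).deg_eq_one
  obtain ⟨B, hB⟩ := mwgt_main_X0 N P0 Sig
  haveI := mwgt_infinite_places N
  obtain ⟨Pts, hPts⟩ := Infinite.exists_subset_card_eq
    (Place QBar ↥(modularFunctionFieldBar N)) B
  set g : ℕ := genusFF QBar ↥(modularFunctionFieldBar N) with hg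
  set SA : Finset (Divisor QBar ↥(modularFunctionFieldBar N)) :=
    Pts.finsupp (fun _ => Finset.Icc (0 : ℤ) (g : ℤ)) with hSA
  refine ⟨(fun p : Divisor QBar ↥(modularFunctionFieldBar N) ×
      Place QBar ↥(modularFunctionFieldBar N) × Place QBar ↥(modularFunctionFieldBar N) =>
      mwgtTrans N P0 p.1 p.2.1 p.2.2) '' ((SA ×ˢ Pts ×ˢ Pts : Finset _) : Set _),
    (Finset.finite_toSet _).image _, fun x => ?_⟩
  obtain ⟨Z, rfl⟩ := Pic0.mk_surjective x
  obtain ⟨A, R1, R2, E, hA0, hAP, hAdeg, hR1, hR2, hE0, hE1, hEdeg, hEl, hEP0, hESig, hprin⟩ :=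
    hB Pts hPts.ge Z.1 Z.2
  have hAmem : A ∈ SA := by
    rw [hSA, Finset.mem_finsupp_iff]
    refine ⟨fun v hv => hAP v (Finsupp.mem_support_iff.1 hv), fun v _ => ?_⟩
    rw [Finset.mem_Icc]
    exact ⟨hA0 v, (mwgt_apply_le_degree hd hA0 v).trans hAdeg⟩
  refine ⟨mwgtTrans N P0 A R1 R2, ⟨(A, R1, R2), ?_, rfl⟩, ?_⟩
  · rw [Finset.mem_coe, Finset.mem_product, Finset.mem_product]
    exact ⟨hAmem, hR1, hR2⟩
  · have h0 : Divisor.degree (E - (g : ℤ) • Finsupp.single P0 (1 : ℤ)) = 0 := by
      rw [map_sub, map_zsmul, Divisor.degree_single, hd P0, hEdeg]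
      simp
    refine ⟨E, h0, hE0, hE1, hEdeg, hEl, hEP0, hESig, ?_⟩
    unfold mwgtTrans
    rw [← Pic0.mk_add]
    refine QuotientAddGroup.eq.2 ?_
    rw [AddSubgroup.mem_addSubgroupOf]
    show Divisor.IsPrincipal _
    convert hprin using 1
    simp only [AddSubgroup.coe_add, NegMemClass.coe_neg]
    abel

/-- **the class-level cover, with a field of rationality**: all translating classes are rational
over a number field `K ≥ K₀`. -/
theorem mwgt_cover_field (P0 : Place QBar ↥(modularFunctionFieldBar N))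
    (Sig : Finset (Place QBar ↥(modularFunctionFieldBar N)))
    (K₀ : IntermediateField ℚ (AlgebraicClosure ℚ)) [FiniteDimensional ℚ K₀] :
    ∃ K : IntermediateField ℚ (AlgebraicClosure ℚ), K₀ ≤ K ∧ FiniteDimensional ℚ K ∧
      ∃ T : Set (JZero N), T.Finite ∧
        (∀ t ∈ T, ∀ σ ∈ K.fixingSubgroup, σ • t = t) ∧
        ∀ x : JZero N, ∃ t ∈ T, x + t ∈ mwgtGood N P0 Sig := by
  have := gop_isAlgebraic
  obtain ⟨T, hT, hcov⟩ := mwgt_cover N P0 Sig
  obtain ⟨E, hE, hfix⟩ := gop_finite_fixing N T hT
  refine ⟨K₀ ⊔ E, le_sup_left, IntermediateField.finiteDimensional_sup K₀ E, T, hT,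
    fun t ht σ hσ => hfix σ (gop_mem_fixing_of_le le_sup_right σ hσ) t ht, hcov⟩

/-- the same, with the rationality of `T` spelled as `T ⊆ J(K)`. -/
theorem mwgt_cover_fixedPoints (P0 : Place QBar ↥(modularFunctionFieldBar N))
    (Sig : Finset (Place QBar ↥(modularFunctionFieldBar N)))
    (K₀ : IntermediateField ℚ (AlgebraicClosure ℚ)) [FiniteDimensional ℚ K₀] :
    ∃ K : IntermediateField ℚ (AlgebraicClosure ℚ), K₀ ≤ K ∧ FiniteDimensional ℚ K ∧
      ∃ T : Set (JZero N), T.Finite ∧
        T ⊆ (FixedPoints.addSubgroup ↥K.fixingSubgroup (JZero N) : Set (JZero N)) ∧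
        ∀ x : JZero N, ∃ t ∈ T, x + t ∈ mwgtGood N P0 Sig := by
  obtain ⟨K, hK₀, hK, T, hT, hfix, hcov⟩ := mwgt_cover_field N P0 Sig K₀
  exact ⟨K, hK₀, hK, T, hT, fun t ht σ => hfix t ht σ.1 σ.2, hcov⟩

end Fermat.Agent.MW
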